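/-
P-FF, row FF-G3 (helper44): values of functions at places, in valuation language.
Prelude + `Fermat.Agent.H23.PlaceBasic` only.
-/
import Fermat.Agent.H23.PlaceBasic

set_option autoImplicit false

noncomputable section

open AlgebraicCurve WithZero

namespace Fermat.Agent.H44.FF

variable {K F : Type*} [Field K] [Field F] [Algebra K F] (v : Place K F)

/-- "`y(v) = c`" in valuation form. -/
theorem tay_value_iff {y : F} {c : K} :
    (y = algebraMap K F c ∨ 1 ≤ v.ord (y - algebraMap K F c)) ↔
      v.adicValuation (y - algebraMap K F c) < 1 := by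
  rw [Fermat.Agent.H23.adicValuation_lt_one_iff, sub_eq_zero]
  constructor
  · rintro (h | h)
    · exact Or.inl h
    · exact Or.inr (by omega)
  · rintro (h | h)
    · exact Or.inl h
    · exact Or.inr (by omega)

/-- nonzero constants are units at every place -/
theorem tay_adic_const {c : K} (hc : c ≠ 0) : v.adicValuation (algebraMap K F c) = 1 := by
  have h0 : algebraMap K F c ≠ 0 := fun h => hc ((map_eq_zero _).mp h)
  rw [v.adicValuation_eq_exp_neg_ord h0, Fermat.Agent.H23.ord_algebraMap, neg_zero, exp_zero]

theorem tay_adic_const_le (c : K) : v.adicValuation (algebraMap K F c) ≤ 1 :=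
  v.adicValuation_algebraMap_le_one c

/-- a constant of valuation `< 1` vanishes -/
theorem tay_const_eq_zero {c : K} (h : v.adicValuation (algebraMap K F c) < 1) : c = 0 := by
  by_contra hc
  rw [tay_adic_const v hc] at h
  exact lt_irrefl _ h

/-- uniqueness of the value -/
theorem tay_value_unique {y : F} {b b' : K}
    (h : v.adicValuation (y - algebraMap K F b) < 1)
    (h' : v.adicValuation (y - algebraMap K F b') < 1) : b = b' := by
  have h1 : v.adicValuation (algebraMap K F (b - b')) < 1 := by
    have e : algebraMap K F (b - b') =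
        (y - algebraMap K F b') - (y - algebraMap K F b) := by
      rw [map_sub]; ring
    rw [e]
    exact lt_of_le_of_lt (Valuation.map_sub _ _ _) (max_lt h' h)
  exact sub_eq_zero.mp (tay_const_eq_zero v h1)

/-- no pole, in valuation form -/
theorem tay_nopole_iff {y : F} : 0 ≤ v.ord y ↔ v.adicValuation y ≤ 1 := by
  rw [v.adicValuation_le_one_iff]
  constructor
  · exact fun h => Or.inr h
  · rintro (h | h)
    · rw [h, Place.ord_zero]
    · exact h

/-- existence of the value at a place of degree one -/
theorem tay_exists_value (hdeg : v.deg = 1) {y : F} (hy : 0 ≤ v.ord y) :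
    ∃ c : K, v.adicValuation (y - algebraMap K F c) < 1 := by
  obtain ⟨c, hc⟩ := Fermat.Agent.H23.exists_const_ord_sub_pos v hdeg (Or.inr hy)
  refine ⟨c, ?_⟩
  rw [Fermat.Agent.H23.adicValuation_lt_one_iff, sub_eq_zero]
  exact hc

/-- `ord = 0` and nonzero means valuation one -/
theorem tay_adic_eq_one {y : F} (hy : y ≠ 0) (h : v.ord y = 0) : v.adicValuation y = 1 := by
  rw [v.adicValuation_eq_exp_neg_ord hy, h, neg_zero, exp_zero]

end Fermat.Agent.H44.FF
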