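/-
P-FF, row FF-G3 (helper44): the Taylor lemma `TaylorStatement`.

An `I`-fixed element `y` of the Gauss ring without poles on the residue disc of `Q` is, to every
order `M`, a polynomial over `R = unrInt A` in an unramified coordinate `t`, with an integral
remainder `t^M * (element of A)`, at every point of the disc.
-/
import Fermat.Agent.H72.FF.GeoBlocks
import Fermat.Agent.H44.FF.TaylorBasic

set_option autoImplicit false
set_option synthInstance.maxHeartbeats 400000
set_option linter.style.haveILetI false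
set_option linter.unusedSectionVars false
set_option maxHeartbeats 1600000

noncomputable section

open AlgebraicCurve ModularCurve Fermat.Agent.H18 Fermat.Agent.H27.ESD

namespace Fermat.Agent.H44.FF

open Fermat.Agent.H72.FF Fermat.Agent.H10.FF

variable {N ℓ : ℕ} {A : ValuationSubring Qb}
  {r : Place Qb (FLb N) → Place (kRes A) (Fkb A N)} {g : ℕ}

theorem hasValue_iff {P : Place Qb (FLb N)} {y : FLb N} {c : Qb} :
    HasValue P y c ↔ P.adicValuation (y - algebraMap Qb (FLb N) c) < 1 :=
  tay_value_iff P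

/-- constants of the Gauss ring are integral -/
theorem const_mem_of_mem_gaussRing (hS : GeoSetup N ℓ A r g) {c : Qb}
    (h : algebraMap Qb (FLb N) c ∈ gaussRing A N) : c ∈ A := by
  by_contra hcn
  have hci : c⁻¹ ∈ A := (A.mem_or_inv_mem c).resolve_left hcn
  have hc0 : c ≠ 0 := fun h0 => hcn (h0 ▸ A.zero_mem)
  have hnu : ¬ IsUnit (⟨c⁻¹, hci⟩ : A) := by
    intro hu
    obtain ⟨u, hu⟩ := hu
    apply hcn
    have : ((↑u⁻¹ : A) : Qb) = c := by
      have h1 : (u : A) * (↑u⁻¹ : A) = 1 := Units.mul_inv u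
      have h2 := congrArg (Subtype.val) h1
      rw [hu] at h2
      have h3 : c⁻¹ * ((↑u⁻¹ : A) : Qb) = 1 := h2
      field_simp at h3
      exact h3
    rw [← this]
    exact (↑u⁻¹ : A).2
  set ci : gaussRing A N := ⟨algebraMap Qb (FLb N) (c⁻¹ : Qb),
    rv_algebraMap_mem_rvRing (⟨c⁻¹, hci⟩ : A)⟩ with hci'
  have hredci : gaussRed A N ci = 0 := by
    rw [hci']
    show rvRed A (IsLocalRing.residue A) N _ = 0
    rw [rvRed_algebraMap (⟨c⁻¹, hci⟩ : A), (hS.rv.hker _).mpr hnu, map_zero]
  have h1 : (⟨algebraMap Qb (FLb N) c, h⟩ : gaussRing A N) * ci = 1 := by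
    apply Subtype.ext
    show algebraMap Qb (FLb N) c * algebraMap Qb (FLb N) (c⁻¹ : Qb) = 1
    rw [← map_mul, mul_inv_cancel₀ hc0, map_one]
  have h2 := congrArg (gaussRed A N) h1
  rw [map_mul, hredci, mul_zero, map_one] at h2
  exact zero_ne_one h2

/-- values of functions of the Gauss ring without poles on a disc are integral -/
theorem value_mem (hS : GeoSetup N ℓ A r g) (Q : Place (kRes A) (Fkb A N)) (y : gaussRing A N)
    (hnp : ∀ P1, r P1 = Q → 0 ≤ P1.ord (y : FLb N)) (P1 : Place Qb (FLb N)) (hP1 : r P1 = Q)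
    (b : Qb) (hb : HasValue P1 (y : FLb N) b) : b ∈ A := by
  rcases hb with hb | hb
  · exact const_mem_of_mem_gaussRing hS (hb ▸ y.2)
  · by_cases hyc : (y : FLb N) = algebraMap Qb (FLb N) b
    · exact const_mem_of_mem_gaussRing hS (hyc ▸ y.2)
    · obtain ⟨hcA, -⟩ := hS.rv.value_lemma y Q hnp P1 hP1 b hb hyc
      exact hcA

/-- Galois transport of values -/
theorem hasValue_smul (σ : GQ) {P : Place Qb (FLb N)} {y : FLb N} {c : Qb}
    (h : HasValue P y c) : HasValue (galF N σ • P) (galF N σ • y) (σ c) := by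
  have e : galF N σ • (y - algebraMap Qb (FLb N) c) =
      galF N σ • y - algebraMap Qb (FLb N) (σ c) := by
    rw [smul_sub, SemilinearAut.smul_algebraMap]
    rfl
  rcases h with h | h
  · left
    rw [h, SemilinearAut.smul_algebraMap]
    rfl
  · right
    rw [← e, SemilinearAut.ord_smul]
    exact h

/-- **Division step.**  `y = y₀ + t * y'` with `y₀ ∈ R` the value at the centre and `y'` again
`I`-fixed, in the Gauss ring, without poles on the disc. -/
theorem taylor_step (hS : GeoSetup N ℓ A r g) (Q : Place (kRes A) (Fkb A N))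
    (P : Place Qb (FLb N)) (t : gaussRing A N) (hc : IsUnrCoord A N r Q P t)
    (y : gaussRing A N) (hy : IsUnrFn A N (y : FLb N))
    (hnp : ∀ P1, r P1 = Q → 0 ≤ P1.ord (y : FLb N)) :
    ∃ (y₀ : Qb) (y' : gaussRing A N), y₀ ∈ unrInt A ∧ IsUnrFn A N (y' : FLb N) ∧
      (∀ P1, r P1 = Q → 0 ≤ P1.ord (y' : FLb N)) ∧
      ∀ P1, r P1 = Q → ∀ a b : Qb, HasValue P1 (t : FLb N) a → HasValue P1 (y : FLb N) b →
        (a = 0 → b = y₀) ∧ (a ≠ 0 → HasValue P1 (y' : FLb N) ((b - y₀) / a)) := by
  have H := hS.rv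
  have hred0 : gaussRed A N t ≠ 0 := by
    intro h0
    have := hc.simple
    rw [h0, Place.ord_zero] at this
    exact zero_ne_one this
  have ht0 : (t : FLb N) ≠ 0 := rv_coe_ne_zero_of_red_ne_zero hred0
  obtain ⟨hordP, hordP1⟩ := H.ord_eq_of_coord Q P hc.red t hc.zero hc.simple hc.nopole
  -- the value at the centre
  obtain ⟨y₀, hy₀⟩ := tay_exists_value P (hS.pkgL.deg_one P) (hnp P hc.red)
  have hy₀' : HasValue P (y : FLb N) y₀ := hasValue_iff.mpr hy₀
  have hy₀A : y₀ ∈ A := value_mem hS Q y hnp P hc.red y₀ hy₀'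
  have hy₀I : ∀ σ ∈ A.inertiaSubgroupIn ℚ, σ y₀ = y₀ := by
    intro σ hσ
    have h1 := hasValue_smul σ hy₀'
    rw [hc.unrP σ hσ, hy σ hσ] at h1
    exact tay_value_unique P (hasValue_iff.mp h1) hy₀
  -- the quotient
  set c₀ : gaussRing A N := ⟨algebraMap Qb (FLb N) y₀,
    rv_algebraMap_mem_rvRing (⟨y₀, hy₀A⟩ : A)⟩ with hc₀
  set ti : gaussRing A N := ⟨(t : FLb N)⁻¹, inv_mem_rvRing_of_red_ne_zero hred0⟩ with hti
  have hval : (((y - c₀) * ti : gaussRing A N) : FLb N) =
      ((y : FLb N) - algebraMap Qb (FLb N) y₀) * (t : FLb N)⁻¹ := rfl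
  -- valuation of `y - y₀` on the disc
  have hle : ∀ P1, r P1 = Q →
      P1.adicValuation ((y : FLb N) - algebraMap Qb (FLb N) y₀) ≤ 1 := by
    intro P1 hP1
    exact (Valuation.map_sub _ _ _).trans
      (max_le ((tay_nopole_iff P1).mp (hnp P1 hP1)) (tay_adic_const_le P1 y₀))
  refine ⟨y₀, (y - c₀) * ti, ⟨hy₀A, hy₀I⟩, ?_, ?_, ?_⟩
  · -- `I`-fixed
    intro σ hσ
    rw [hval, smul_mul', smul_sub, smul_inv'', hy σ hσ, hc.unrT σ hσ,
      SemilinearAut.smul_algebraMap]
    have : SemilinearAut.baseAut (galF N σ) y₀ = y₀ := hy₀I σ hσ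
    rw [this]
  · -- no poles on the disc
    intro P1 hP1
    rw [hval]
    by_cases h0 : (y : FLb N) - algebraMap Qb (FLb N) y₀ = 0
    · rw [h0, zero_mul, Place.ord_zero]
    rw [P1.ord_mul h0 (inv_ne_zero ht0), Place.ord_inv]
    by_cases hPP : P1 = P
    · rw [hPP, hordP]
      rcases hy₀' with h | h
      · exact absurd (sub_eq_zero.mpr h) h0
      · omega
    · rw [hordP1 P1 hP1 hPP]
      have := (tay_nopole_iff P1).mpr (hle P1 hP1)
      omega
  · intro P1 hP1 a b ha hb
    rw [hasValue_iff] at ha hb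
    constructor
    · rintro rfl
      rw [map_zero, sub_zero] at ha
      have hPP : P1 = P := by
        by_contra hne
        rw [tay_adic_eq_one P1 ht0 (hordP1 P1 hP1 hne)] at ha
        exact lt_irrefl _ ha
      rw [hPP] at hb
      exact tay_value_unique P hb hy₀
    · intro ha0
      rw [hasValue_iff, hval]
      have hva : P1.adicValuation (algebraMap Qb (FLb N) a) = 1 := tay_adic_const P1 ha0
      have hvt : P1.adicValuation (t : FLb N) = 1 := by
        have e : (t : FLb N) = ((t : FLb N) - algebraMap Qb (FLb N) a) +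
            algebraMap Qb (FLb N) a := by ring
        rw [e, Valuation.map_add_eq_of_lt_right _ (by rw [hva]; exact ha), hva]
      have hnum : ((y : FLb N) - algebraMap Qb (FLb N) y₀) * (t : FLb N)⁻¹ -
          algebraMap Qb (FLb N) ((b - y₀) / a) =
          (((y : FLb N) - algebraMap Qb (FLb N) b) -
            algebraMap Qb (FLb N) ((b - y₀) / a) * ((t : FLb N) - algebraMap Qb (FLb N) a)) *
            (t : FLb N)⁻¹ := by
        have hq : (b - y₀) / a * a = b - y₀ := div_mul_cancel₀ _ ha0
        have hamap : algebraMap Qb (FLb N) ((b - y₀) / a) * algebraMap Qb (FLb N) a =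
            algebraMap Qb (FLb N) b - algebraMap Qb (FLb N) y₀ := by
          rw [← RingHom.map_mul, hq, RingHom.map_sub]
        field_simp
        linear_combination (-1 : FLb N) * hamap
      rw [hnum, map_mul, map_inv₀, hvt, inv_one, mul_one]
      refine lt_of_le_of_lt (Valuation.map_sub _ _ _) (max_lt hb ?_)
      rw [map_mul]
      calc P1.adicValuation (algebraMap Qb (FLb N) ((b - y₀) / a)) *
            P1.adicValuation ((t : FLb N) - algebraMap Qb (FLb N) a)
          ≤ 1 * P1.adicValuation ((t : FLb N) - algebraMap Qb (FLb N) a) :=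
            mul_le_mul_left (tay_adic_const_le P1 _) _
        _ < 1 := by rw [one_mul]; exact ha

/-- **FF-G3 (Taylor lemma).** -/
theorem taylor : TaylorStatement := by
  intro N ℓ A r g hS Q P t hc y hy hnp M
  induction M generalizing y with
  | zero =>
    refine ⟨0, fun n => ?_, ?_⟩
    · rw [Polynomial.coeff_zero]
      exact (unrInt A).zero_mem
    · intro P1 hP1 a b ha hb
      refine ⟨b, value_mem hS Q y hnp P1 hP1 b hb, ?_⟩
      simp
  | succ M ih =>
    obtain ⟨y₀, y', hy₀, hy', hnp', hstep⟩ := taylor_step hS Q P t hc y hy hnp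
    obtain ⟨p', hp', hval⟩ := ih y' hy' hnp'
    refine ⟨Polynomial.C y₀ + Polynomial.X * p', ?_, ?_⟩
    · intro n
      rw [Polynomial.coeff_add, Polynomial.coeff_C]
      cases n with
      | zero =>
        rw [if_pos rfl, Polynomial.coeff_X_mul_zero, add_zero]
        exact hy₀
      | succ n =>
        rw [if_neg (Nat.succ_ne_zero n), Polynomial.coeff_X_mul, zero_add]
        exact hp' n
    · intro P1 hP1 a b ha hb
      obtain ⟨h0, h1⟩ := hstep P1 hP1 a b ha hb
      by_cases ha0 : a = 0
      · refine ⟨0, A.zero_mem, ?_⟩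
        rw [h0 ha0, ha0]
        simp
      · obtain ⟨e, he, heq⟩ := hval P1 hP1 a ((b - y₀) / a) ha (h1 ha0)
        refine ⟨e, he, ?_⟩
        simp only [Polynomial.eval_add, Polynomial.eval_C, Polynomial.eval_mul,
          Polynomial.eval_X]
        have h2 : b - y₀ - a * Polynomial.eval a p' = a * (a ^ M * e) := by
          rw [← heq]
          field_simp
        rw [pow_succ]
        linear_combination h2

end Fermat.Agent.H44.FF
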